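import Mathlib
import Fermat.Prelude.Def_GaloisRep_Residual
import Fermat.Prelude.Def_FLTPrelim_Modularity

/-!
S48lib / Iface / W2 (helper9 draft, lead reviews).  STATEMENTS ONLY.

The interface between the PORT (blocks P1--P8: the curve `X_1(M)`, its Jacobian, Hecke operators,
reduction, Eichler--Shimura) and the UPPER blocks (U7 Conj, U9 DS) of the Deligne--Serre
marathon.  Everything here is stated against Mathlib + Prelude only, in the vocabulary of the
frozen statement S48 (`CuspForm (Gamma1 M) k`, `ModularFormClass.qCoeff`, `DirichletCharacter`,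
valuation-subring Frobenius / inertia).

* `HasNebentypus g χ`     : `g ∣[k] γ = χ(d_γ) g` for `γ ∈ Γ₀(M)`.
* `IsHeckeEigenAway g χ b`: the `q`-expansion form of `T_p g = b_p g` (`p ∤ M`) for a form of
  nebentypus `χ` and weight `k` (same shape as the hypothesis `hT` of the frozen S48).
* `HeckeOps M k`          : an operator package (`T p`, `diam d`) CHARACTERISED by its slash /
  `q`-expansion formulas, so that statements quantified over it do not depend on the
  implementation of block U6.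
* `W2Int M`               : (W2-int) the forms of weight 2 on `Γ₁(M)` with integral `q`-expansion
  form a finitely generated `ℤ`-module which spans and is stable under `diam d`, `T p`.
* `W2Gal M`               : (W2-Gal) residual Galois representations for weight 2 eigenforms with
  nebentypus on `Γ₁(M)`, residue characteristic `ℓ ≠ 2` (`ℓ ∣ M` ALLOWED: Deligne--Serre uses
  `M = N ℓ`), algebraically closed coefficients.
-/

set_option autoImplicit false

noncomputable section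

open CongruenceSubgroup ModularFormClass Polynomial UpperHalfPlane
open scoped MatrixGroups ModularForm

namespace Fermat.Agent.S48lib.Iface

local notation "Γℚ" => (AlgebraicClosure ℚ ≃ₐ[ℚ] AlgebraicClosure ℚ)
local notation "Zb" => integralClosure ℤ ℂ

/-- `g` has nebentypus `χ`: `g ∣[k] γ = χ(d) g` for `γ = (a b; c d) ∈ Γ₀(M)`. -/
def HasNebentypus {M : ℕ} {k : ℤ} (g : CuspForm (Gamma1 M) k) (χ : DirichletCharacter ℂ M) :
    Prop :=
  ∀ γ : SL(2, ℤ), γ ∈ Gamma0 M →
    (⇑g : ℍ → ℂ) ∣[k] γ = χ (((γ 1 1 : ℤ)) : ZMod M) • (⇑g : ℍ → ℂ)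

/-- `q`-expansion form of "`T_p g = b_p g` for all primes `p ∤ M`", for a form `g` of weight `k`
and nebentypus `χ`. -/
def IsHeckeEigenAway {M : ℕ} {k : ℤ} (g : CuspForm (Gamma1 M) k) (χ : DirichletCharacter ℂ M)
    (b : ℕ → ℂ) : Prop :=
  ∀ p : ℕ, p.Prime → ¬ p ∣ M → ∀ n : ℕ,
    qCoeff g (p * n) +
        χ (p : ZMod M) * (p : ℂ) ^ (k - 1) * (if p ∣ n then qCoeff g (n / p) else 0) =
      b p * qCoeff g n

/-- The lattice of forms with integral `q`-expansion at `∞` (same shape as the Prelude's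
`CuspForm.intLattice` for `Γ₀(N)`). -/
def intLattice (M : ℕ) (k : ℤ) : Submodule ℤ (CuspForm (Gamma1 M) k) :=
  Submodule.span ℤ {g | ∀ n : ℕ, ∃ m : ℤ, qCoeff g n = (m : ℂ)}

/-- An operator package on `S_k(Γ₁(M))`, characterised by the slash formula for the diamond
operators and the `q`-expansion formula for `T_p` (`p ∤ M` prime). -/
structure HeckeOps (M : ℕ) (k : ℤ) where
  /-- the diamond operators -/
  diam : (ZMod M)ˣ → CuspForm (Gamma1 M) k →ₗ[ℂ] CuspForm (Gamma1 M) k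
  /-- the Hecke operators (only meaningful at primes `p ∤ M`) -/
  T : ℕ → CuspForm (Gamma1 M) k →ₗ[ℂ] CuspForm (Gamma1 M) k
  diam_apply : ∀ (d : (ZMod M)ˣ) (γ : SL(2, ℤ)), γ ∈ Gamma0 M →
    (((γ 1 1 : ℤ)) : ZMod M) = (d : ZMod M) → ∀ g : CuspForm (Gamma1 M) k,
      (⇑(diam d g) : ℍ → ℂ) = (⇑g : ℍ → ℂ) ∣[k] γ
  qCoeff_T : ∀ (p : ℕ) (hp : p.Prime) (hpM : ¬ p ∣ M) (g : CuspForm (Gamma1 M) k) (n : ℕ),
    qCoeff (T p g) n =
      qCoeff g (p * n) + (p : ℂ) ^ (k - 1) *
        (if p ∣ n then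
          qCoeff (diam (ZMod.unitOfCoprime p
            ((Nat.Prime.coprime_iff_not_dvd hp).mpr hpM)) g) (n / p)
        else 0)

/-- **(W2-int)**: the weight 2 forms on `Γ₁(M)` with integral `q`-expansion form a finitely
generated `ℤ`-module, which spans `S₂(Γ₁(M))` over `ℂ` and is stable under the diamond and the
Hecke operators. -/
def W2Int (M : ℕ) : Prop :=
  (intLattice M 2).FG ∧
  Submodule.span ℂ ((intLattice M 2 : Submodule ℤ (CuspForm (Gamma1 M) 2)) :
      Set (CuspForm (Gamma1 M) 2)) = ⊤ ∧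
  ∀ H : HeckeOps M 2,
    (∀ (d : (ZMod M)ˣ), ∀ g ∈ intLattice M 2, H.diam d g ∈ intLattice M 2) ∧
    (∀ p : ℕ, p.Prime → ¬ p ∣ M → ∀ g ∈ intLattice M 2, H.T p g ∈ intLattice M 2)

/-- Semisimplicity of a residual representation: every stable subspace has a stable
complement. -/
def IsSemisimpleRep {k : Type} [Field k] (ρ : ResidualGaloisRep k) : Prop :=
  ∀ W : Submodule k ρ.V, (∀ σ : Γℚ, ∀ x ∈ W, ρ.ρ σ x ∈ W) →
    ∃ W' : Submodule k ρ.V, (∀ σ : Γℚ, ∀ x ∈ W', ρ.ρ σ x ∈ W') ∧ IsCompl W W'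

/-- **(W2-Gal)**: a nonzero weight 2 form `g` on `Γ₁(M)` with nebentypus `χ`, eigenvector of all
`T_p` (`p ∤ M`) with eigenvalues `b_p ∈ ℤ̄`, has, for every prime `ℓ ≠ 2` (`ℓ ∣ M` allowed) and every ring
homomorphism `φ : ℤ̄ → k` to an algebraically closed field of characteristic `ℓ`, a semisimple
2-dimensional representation of `G_ℚ` over `k` of finite level, unramified at all `p ∤ Mℓ`, with
`charpoly ρ(Frob_p) = X² - φ(b_p) X + p φ(χ(p))`.  (`c p ∈ ℤ̄` is the value `χ(p)`.) -/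
def W2Gal (M : ℕ) : Prop :=
  ∀ (χ : DirichletCharacter ℂ M) (g : CuspForm (Gamma1 M) 2) (b c : ℕ → Zb),
    g ≠ 0 → HasNebentypus g χ → IsHeckeEigenAway g χ (fun p => ((b p : Zb) : ℂ)) →
    (∀ p : ℕ, p.Prime → ¬ p ∣ M → ((c p : Zb) : ℂ) = χ (p : ZMod M)) →
    ∀ ℓ : ℕ, ℓ.Prime → ℓ ≠ 2 →
    ∀ (k : Type) [Field k] [IsAlgClosed k] [CharP k ℓ] (φ : Zb →+* k),
      ∃ ρ : ResidualGaloisRep k, IsSemisimpleRep ρ ∧
        (∀ p : ℕ, p.Prime → ¬ p ∣ M * ℓ → ρ.IsUnramifiedAt p) ∧
        ∀ p : ℕ, p.Prime → ¬ p ∣ M * ℓ →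
          ∀ A : ValuationSubring (AlgebraicClosure ℚ), A.LiesOverPrime p →
            ∀ σ : Γℚ, A.IsFrobeniusAt σ p →
              LinearMap.charpoly (ρ.ρ σ) =
                X ^ 2 - C (φ (b p)) * X + C ((p : k) * φ (c p))

end Fermat.Agent.S48lib.Iface
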