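/-
S48 shared vocabulary: one-sided Dirichlet densities of sets of primes (helper4's proposal #2148,
verbatim). Definitions only; lemmas live in `S48lib/Dens/`.
-/
import Mathlib

set_option autoImplicit false

namespace Fermat.Agent.S48lib

/-- `∑_{p prime, p ∈ B} p^{-s}`. -/
noncomputable def primeSum (B : Set ℕ) (s : ℝ) : ℝ :=
  ∑' p : Nat.Primes, Set.indicator B (fun n : ℕ => (n : ℝ) ^ (-s)) (p : ℕ)

/-- the upper Dirichlet density of `B ∩ primes` is `≤ η`. -/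
def UpperDensityLE (B : Set ℕ) (η : ℝ) : Prop :=
  ∀ η' : ℝ, η < η' → ∃ δ : ℝ, 0 < δ ∧ ∀ s : ℝ, 1 < s → s < 1 + δ →
    primeSum B s ≤ η' * Real.log (1 / (s - 1))

/-- the lower Dirichlet density of `B ∩ primes` is `≥ c`. -/
def LowerDensityGE (B : Set ℕ) (c : ℝ) : Prop :=
  ∀ c' : ℝ, c' < c → ∃ δ : ℝ, 0 < δ ∧ ∀ s : ℝ, 1 < s → s < 1 + δ →
    c' * Real.log (1 / (s - 1)) ≤ primeSum B s

end Fermat.Agent.S48lib
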